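/-
Programme T1a (S19), brick G-e CHARTAUT (helper56): **`RedIface75.ChartAut` for the charts of a
`CoreIface24.TwoChartModel`**, abstractly and for the decomposition group.

* `chart0_eq`, `chart1_eq` : the charts of a model are the integral closures `chart R t`, `chart R t⁻¹`;
* `preserves_of_model` : for `M : TwoChartModel R K F π t B0 B1 Ov`, a ring endomorphism `g` of `F`,
  semilinear over `σ : R →+* R`, fixing `t`, and ANY hub `c0 : TwoChart R ↥B0 ↥B1 ↥(B0 ⊔ B1)` with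
  coordinates `t`, `t⁻¹`: `ChartAut9.Build.Preserves σ g c0`;
* `chartAutOfModel` : the resulting `RedIface75.ChartAut c0` (`σW = σ`, `σ_j = g|_{B_j}`), with the
  coercion lemmas;
* functoriality of `chartAutOfModel` in `(σ, g)`: `chartAutOfModel_id_*`, `chartAutOfModel_comp_*`;
* congruence forms `chartAutOfModel_σj_eq_id`, `chartAutOfModel_σj_eq_comp` (`j = W, 0, 1, 01`).

USAGE (coefficientwise Galois action, `ChartAut9.Concrete`): `Kt` a `ℚ`-field, `O : ValuationSubring Kt`,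
`F = ↥(laurentBaseChange Kt F₀)`, `σ : Kt ≃ₐ[ℚ] Kt` with `hσ : ∀ x ∈ O, σ x ∈ O`, `t` with
`ht : arithHom F₀ σ t = t` (e.g. `arithHom_tq`), `M : TwoChartModel ↥O Kt F π t B0 B1 Ov`:
  `chartAutOfModel M (semiOn_arith O F₀ σ hσ) ht c0 hct hcs hc0 hc1 : ChartAut c0`,
with `σW = sigmaO O σ hσ` (rfl), `coe (σ_j b) = arithHom F₀ σ b` (rfl); multiplicativity in `σ` from the
congruence forms with `hg := fun x => by rw [arithHom_mul]; rfl`, `arithHom_one`.  For `Kt = K ⊂ ℚ̄` normal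
over `ℚ`, `O = AK A K`, `τ` in the decomposition group of `A`: `σ := τ.restrictNormal K`,
`hσ := restrict_mem_AK A K hτ`, `restrictNormal_one9`, `restrictNormal_mul9`.  (No concrete wrapper is
stated here on purpose: at these types every declaration pays ~25 s of typeclass search for the
`SMul`/`IsScalarTower` instances of `↥O` on subalgebras.)
-/
import Mathlib
import Fermat.Agent.RED.CORE.CoreIface24
import Fermat.Agent.T1.ChartAut9.Build
import Fermat.Agent.T1.ChartAut9.Concrete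

set_option autoImplicit false
set_option linter.unusedSectionVars false

noncomputable section

namespace Fermat.Agent.T1.ChartAut56.Final

open Fermat.Agent.Jac Fermat.Agent.T1.RedIface75 Fermat.Agent.T1.ChartAut9.Generic
open Fermat.Agent.T1.ChartAut9.Build Fermat.Agent.RED.CORE.CoreIface24
open Fermat.Agent.RED.PUR.ChartGeneric22

universe u

section Abstract

variable {R K F : Type u} [CommRing R] [Field K] [Field F] [Algebra R K] [Algebra K F]
  [Algebra R F] [IsScalarTower R K F]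
  {π : R} {t : F} {B0 B1 : Subalgebra R F} {Ov : ValuationSubring F}

/-- an element integral over a subalgebra contained in `B` is integral over `B`. -/
theorem isIntegral_of_le {S B : Subalgebra R F} (h : S ≤ B) {x : F} (hx : IsIntegral S x) :
    IsIntegral B x := by
  obtain ⟨p, hp, hpx⟩ := hx
  refine ⟨p.map (Subalgebra.inclusion h).toRingHom, hp.map _, ?_⟩
  rw [Polynomial.eval₂_map]
  exact hpx

/-- the first chart of a model is the integral closure of `R[t]`. -/
theorem chart0_eq (M : TwoChartModel R K F π t B0 B1 Ov) : B0 = chart R t := by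
  apply le_antisymm
  · intro x hx
    exact M.int0 x hx
  · intro x hx
    refine M.intcl0 x (isIntegral_of_le ?_ hx)
    exact Algebra.adjoin_le (Set.singleton_subset_iff.2 M.t_mem)

/-- the second chart of a model is the integral closure of `R[t⁻¹]`. -/
theorem chart1_eq (M : TwoChartModel R K F π t B0 B1 Ov) : B1 = chart R t⁻¹ := by
  apply le_antisymm
  · intro x hx
    exact M.int1 x hx
  · intro x hx
    refine M.intcl1 x (isIntegral_of_le ?_ hx)
    exact Algebra.adjoin_le (Set.singleton_subset_iff.2 M.tinv_mem)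

variable [Algebra ↥B0 ↥(B0 ⊔ B1)] [Algebra ↥B1 ↥(B0 ⊔ B1)]
  [IsScalarTower R ↥B0 ↥(B0 ⊔ B1)] [IsScalarTower R ↥B1 ↥(B0 ⊔ B1)]

/-- **the hypotheses of `chartAutOf` for the charts of a model.** -/
theorem preserves_of_model (M : TwoChartModel R K F π t B0 B1 Ov) {σ : R →+* R} {g : F →+* F}
    (h : SemiOn σ g) (ht : g t = t) (c0 : TwoChart R ↥B0 ↥B1 ↥(B0 ⊔ B1))
    (hct : (c0.t : F) = t) (hcs : (c0.s : F) = t⁻¹) : Preserves σ g c0 := by
  have e0 := chart0_eq M
  have e1 := chart1_eq M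
  refine ⟨h, ?_, ?_, ?_, ?_, ?_⟩
  · intro x hx
    rw [e0] at hx ⊢
    exact map_mem_chart_self h ht hx
  · intro x hx
    rw [e1] at hx ⊢
    exact map_mem_chart_inv h ht hx
  · intro x hx
    have hx' : x ∈ chart R t ⊔ chart R t⁻¹ := by rw [← e0, ← e1]; exact hx
    have := map_mem_overlap h ht hx'
    rw [← e0, ← e1] at this
    exact this
  · rw [hct]; exact ht
  · rw [hcs, map_inv₀, ht]

/-- **The `ChartAut` of the hub of a model** attached to a semilinear endomorphism fixing `t`. -/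
def chartAutOfModel (M : TwoChartModel R K F π t B0 B1 Ov) {σ : R →+* R} {g : F →+* F}
    (h : SemiOn σ g) (ht : g t = t) (c0 : TwoChart R ↥B0 ↥B1 ↥(B0 ⊔ B1))
    (hct : (c0.t : F) = t) (hcs : (c0.s : F) = t⁻¹)
    (hc0 : ∀ b : ↥B0, ((algebraMap ↥B0 ↥(B0 ⊔ B1) b : ↥(B0 ⊔ B1)) : F) = (b : F))
    (hc1 : ∀ b : ↥B1, ((algebraMap ↥B1 ↥(B0 ⊔ B1) b : ↥(B0 ⊔ B1)) : F) = (b : F)) :
    ChartAut c0 :=
  chartAutOf hc0 hc1 (preserves_of_model M h ht c0 hct hcs)

/-! #### functoriality -/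

section Functorial

variable (M : TwoChartModel R K F π t B0 B1 Ov) (c0 : TwoChart R ↥B0 ↥B1 ↥(B0 ⊔ B1))
  (hct : (c0.t : F) = t) (hcs : (c0.s : F) = t⁻¹)
  (hc0 : ∀ b : ↥B0, ((algebraMap ↥B0 ↥(B0 ⊔ B1) b : ↥(B0 ⊔ B1)) : F) = (b : F))
  (hc1 : ∀ b : ↥B1, ((algebraMap ↥B1 ↥(B0 ⊔ B1) b : ↥(B0 ⊔ B1)) : F) = (b : F))

section Coe

variable {σ : R →+* R} {g : F →+* F} (h : SemiOn σ g) (ht : g t = t)

@[simp] theorem chartAutOfModel_σW :
    (chartAutOfModel M h ht c0 hct hcs hc0 hc1).σW = σ := rfl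

@[simp] theorem coe_chartAutOfModel_σ0 (b : ↥B0) :
    (((chartAutOfModel M h ht c0 hct hcs hc0 hc1).σ0 b : ↥B0) : F) = g b := rfl

@[simp] theorem coe_chartAutOfModel_σ1 (b : ↥B1) :
    (((chartAutOfModel M h ht c0 hct hcs hc0 hc1).σ1 b : ↥B1) : F) = g b := rfl

@[simp] theorem coe_chartAutOfModel_σ01 (b : ↥(B0 ⊔ B1)) :
    (((chartAutOfModel M h ht c0 hct hcs hc0 hc1).σ01 b : ↥(B0 ⊔ B1)) : F) = g b := rfl

end Coe

theorem chartAutOfModel_id_σ0 :
    (chartAutOfModel M (SemiOn.id (R := R) (F := F)) rfl c0 hct hcs hc0 hc1).σ0 = RingHom.id ↥B0 :=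
  RingHom.ext fun _ => Subtype.ext rfl

theorem chartAutOfModel_id_σ1 :
    (chartAutOfModel M (SemiOn.id (R := R) (F := F)) rfl c0 hct hcs hc0 hc1).σ1 = RingHom.id ↥B1 :=
  RingHom.ext fun _ => Subtype.ext rfl

theorem chartAutOfModel_id_σ01 :
    (chartAutOfModel M (SemiOn.id (R := R) (F := F)) rfl c0 hct hcs hc0 hc1).σ01 =
      RingHom.id ↥(B0 ⊔ B1) :=
  RingHom.ext fun _ => Subtype.ext rfl

/-- `t` is fixed by a composite. -/
theorem comp_fix {F : Type*} [Field F] {g g' : F →+* F} {t : F} (ht : g t = t) (ht' : g' t = t) :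
    (g.comp g') t = t := by rw [RingHom.comp_apply, ht', ht]

variable {σ σ' : R →+* R} {g g' : F →+* F} (h : SemiOn σ g) (h' : SemiOn σ' g')
  (ht : g t = t) (ht' : g' t = t)


theorem chartAutOfModel_comp_σ0 :
    (chartAutOfModel M (h.comp h') (comp_fix ht ht') c0 hct hcs hc0 hc1).σ0 =
      (chartAutOfModel M h ht c0 hct hcs hc0 hc1).σ0.comp
        (chartAutOfModel M h' ht' c0 hct hcs hc0 hc1).σ0 :=
  RingHom.ext fun _ => Subtype.ext rfl

theorem chartAutOfModel_comp_σ1 :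
    (chartAutOfModel M (h.comp h') (comp_fix ht ht') c0 hct hcs hc0 hc1).σ1 =
      (chartAutOfModel M h ht c0 hct hcs hc0 hc1).σ1.comp
        (chartAutOfModel M h' ht' c0 hct hcs hc0 hc1).σ1 :=
  RingHom.ext fun _ => Subtype.ext rfl

theorem chartAutOfModel_comp_σ01 :
    (chartAutOfModel M (h.comp h') (comp_fix ht ht') c0 hct hcs hc0 hc1).σ01 =
      (chartAutOfModel M h ht c0 hct hcs hc0 hc1).σ01.comp
        (chartAutOfModel M h' ht' c0 hct hcs hc0 hc1).σ01 :=
  RingHom.ext fun _ => Subtype.ext rfl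

/-! congruence forms (for families `τ ↦ (σ_τ, g_τ)` which are multiplicative only propositionally,
e.g. `g_τ = ChartAut9.Concrete.arithHom F₀ (τ|_K)` with `arithHom_one`, `arithHom_mul`) -/

variable {σ'' : R →+* R} {g'' : F →+* F} (h'' : SemiOn σ'' g'') (ht'' : g'' t = t)

theorem chartAutOfModel_σW_eq_id (hσ : ∀ r, σ r = r) :
    (chartAutOfModel M h ht c0 hct hcs hc0 hc1).σW = RingHom.id R :=
  RingHom.ext hσ

theorem chartAutOfModel_σ0_eq_id (hg : ∀ x, g x = x) :
    (chartAutOfModel M h ht c0 hct hcs hc0 hc1).σ0 = RingHom.id ↥B0 :=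
  RingHom.ext fun b => Subtype.ext (hg b)

theorem chartAutOfModel_σ1_eq_id (hg : ∀ x, g x = x) :
    (chartAutOfModel M h ht c0 hct hcs hc0 hc1).σ1 = RingHom.id ↥B1 :=
  RingHom.ext fun b => Subtype.ext (hg b)

theorem chartAutOfModel_σ01_eq_id (hg : ∀ x, g x = x) :
    (chartAutOfModel M h ht c0 hct hcs hc0 hc1).σ01 = RingHom.id ↥(B0 ⊔ B1) :=
  RingHom.ext fun b => Subtype.ext (hg b)

theorem chartAutOfModel_σW_eq_comp (hσ : ∀ r, σ'' r = σ (σ' r)) :
    (chartAutOfModel M h'' ht'' c0 hct hcs hc0 hc1).σW =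
      (chartAutOfModel M h ht c0 hct hcs hc0 hc1).σW.comp
        (chartAutOfModel M h' ht' c0 hct hcs hc0 hc1).σW :=
  RingHom.ext hσ

theorem chartAutOfModel_σ0_eq_comp (hg : ∀ x, g'' x = g (g' x)) :
    (chartAutOfModel M h'' ht'' c0 hct hcs hc0 hc1).σ0 =
      (chartAutOfModel M h ht c0 hct hcs hc0 hc1).σ0.comp
        (chartAutOfModel M h' ht' c0 hct hcs hc0 hc1).σ0 :=
  RingHom.ext fun b => Subtype.ext (hg b)

theorem chartAutOfModel_σ1_eq_comp (hg : ∀ x, g'' x = g (g' x)) :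
    (chartAutOfModel M h'' ht'' c0 hct hcs hc0 hc1).σ1 =
      (chartAutOfModel M h ht c0 hct hcs hc0 hc1).σ1.comp
        (chartAutOfModel M h' ht' c0 hct hcs hc0 hc1).σ1 :=
  RingHom.ext fun b => Subtype.ext (hg b)

theorem chartAutOfModel_σ01_eq_comp (hg : ∀ x, g'' x = g (g' x)) :
    (chartAutOfModel M h'' ht'' c0 hct hcs hc0 hc1).σ01 =
      (chartAutOfModel M h ht c0 hct hcs hc0 hc1).σ01.comp
        (chartAutOfModel M h' ht' c0 hct hcs hc0 hc1).σ01 :=
  RingHom.ext fun b => Subtype.ext (hg b)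

end Functorial

end Abstract

end Fermat.Agent.T1.ChartAut56.Final
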