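/-
Programme T1a (S19), brick G-e CHARTAUT, part (2) CONCRETE (helper56): **the coefficientwise action
preserves the Gauss ring.**

* Generic (`K` any field, `O : ValuationSubring K`, `σ : K →+* K` with `σ O ⊆ O`):
  - `resO O σ hσ : ↥O →+* ↥O`, `embK_coeffMap`, `redL_coeffMap_ne_zero`,
  - `isRep_coeffMap`, `coeffMap_mem_gaussRing` : `f ∈ gaussRing O → coeffMap σ f ∈ gaussRing O`,
  - `map_mem_gaussVS` : a ring endomorphism `g` of `E ≤ fracField O` acting coefficientwise through `σ`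
    preserves the Gauss valuation ring `gaussVS hπ E hE`; `map_mem_gaussVS_iff` for `σ` an
    automorphism with `σ⁻¹ O ⊆ O` too.
* Concrete (`K ⊂ ℚ̄` normal over `ℚ`, `O = AK A K`, `τ` in the decomposition group of `A`,
  `g = ChartAut9.Concrete.arithHom (modularFunctionFieldFull M) (τ|_K)`):
  - `arithHom_mem_OvK`, `arithHom_mem_OvK_iff` : `δ_τ` preserves `GaussBridge10.OvK A K M hπ`.
-/
import Mathlib
import Fermat.Agent.RED.PUR.GaussBridge10
import Fermat.Agent.T1.ChartAut9.Concrete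

set_option autoImplicit false

noncomputable section

namespace Fermat.Agent.T1.ChartAut56.Gauss

open HahnSeries ModularCurve
open Fermat.Agent.RED.PUR.GaussGen8

section Generic

variable {K : Type*} [Field K] (O : ValuationSubring K)

/-- The restriction to `O` of a ring endomorphism `σ` of `K` with `σ O ⊆ O`. -/
def resO (σ : K →+* K) (hσ : ∀ x ∈ O, σ x ∈ O) : ↥O →+* ↥O :=
  (σ.comp O.subtype).codRestrict O (fun x => hσ x x.2)

@[simp]
theorem coe_resO (σ : K →+* K) (hσ : ∀ x ∈ O, σ x ∈ O) (x : ↥O) :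
    ((resO O σ hσ x : ↥O) : K) = σ (x : K) := rfl

/-- `embK` intertwines the coefficientwise actions. -/
theorem embK_coeffMap (σ : K →+* K) (hσ : ∀ x ∈ O, σ x ∈ O) (a : LaurentSeries ↥O) :
    embK O (coeffMap (resO O σ hσ) a) = coeffMap σ (embK O a) := by
  ext k
  rfl

/-- units of `O` go to units of `O`. -/
theorem isUnit_resO (σ : K →+* K) (hσ : ∀ x ∈ O, σ x ∈ O) {x : ↥O} (hx : IsUnit x) :
    IsUnit (resO O σ hσ x) :=
  hx.map (resO O σ hσ)

/-- a series of nonzero reduction goes to a series of nonzero reduction. -/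
theorem redL_coeffMap_ne_zero (σ : K →+* K) (hσ : ∀ x ∈ O, σ x ∈ O) {s : LaurentSeries ↥O}
    (hs : redL O s ≠ 0) : redL O (coeffMap (resO O σ hσ) s) ≠ 0 := by
  obtain ⟨k, hk⟩ : ∃ k, (redL O s).coeff k ≠ 0 := by
    by_contra hcon
    push Not at hcon
    exact hs (HahnSeries.ext (funext hcon))
  rw [redL_coeff] at hk
  have hu : IsUnit (s.coeff k) := by
    by_contra hnu
    exact hk ((IsLocalRing.residue_eq_zero_iff _).2 ((IsLocalRing.mem_maximalIdeal _).2 hnu))
  intro h0
  have h1 : (redL O (coeffMap (resO O σ hσ) s)).coeff k = 0 := by rw [h0]; rfl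
  rw [redL_coeff] at h1
  have h2 : IsUnit ((coeffMap (resO O σ hσ) s).coeff k) := isUnit_resO O σ hσ hu
  exact ((IsLocalRing.mem_maximalIdeal _).1 ((IsLocalRing.residue_eq_zero_iff _).1 h1)) h2

variable {O}

/-- representations are transported. -/
theorem isRep_coeffMap (σ : K →+* K) (hσ : ∀ x ∈ O, σ x ∈ O) {f : LaurentSeries K}
    {a s : LaurentSeries ↥O} (h : IsRep O f a s) :
    IsRep O (ModularCurve.coeffMap σ f) (ModularCurve.coeffMap (resO O σ hσ) a)
      (ModularCurve.coeffMap (resO O σ hσ) s) := by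
  refine ⟨redL_coeffMap_ne_zero O σ hσ h.1, ?_⟩
  rw [embK_coeffMap, embK_coeffMap, ← map_mul, h.2]

/-- **The coefficientwise action of `σ` (`σ O ⊆ O`) preserves the Gauss ring.** -/
theorem coeffMap_mem_gaussRing (σ : K →+* K) (hσ : ∀ x ∈ O, σ x ∈ O) {f : LaurentSeries K}
    (hf : f ∈ gaussRing O) : ModularCurve.coeffMap σ f ∈ gaussRing O := by
  obtain ⟨a, s, h⟩ := hf
  exact ⟨_, _, isRep_coeffMap σ hσ h⟩

/-- a ring endomorphism of `E` acting coefficientwise through `σ` preserves the Gauss valuation ring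
of `E`. -/
theorem map_mem_gaussVS {π : ↥O} (hπ : IsUnif O π) (E : IntermediateField K (LaurentSeries K))
    (hE : E ≤ fracField O) (σ : K →+* K) (hσ : ∀ x ∈ O, σ x ∈ O) (g : ↥E →+* ↥E)
    (hg : ∀ x : ↥E, ((g x : ↥E) : LaurentSeries K) = ModularCurve.coeffMap σ (x : LaurentSeries K))
    {f : ↥E} (hf : f ∈ gaussVS hπ E hE) : g f ∈ gaussVS hπ E hE := by
  rw [mem_gaussVS_iff] at hf ⊢
  rw [hg]
  exact coeffMap_mem_gaussRing σ hσ hf

end Generic

/-! ### The decomposition group of `A ⊂ ℚ̄` acting on `K · F_M` -/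

section Concrete

open Fermat.Agent.RED.Interface4 Fermat.Agent.RED.PUR.GaussBridge10
open Fermat.Agent.T1.ChartAut9.Concrete

variable (A : ValuationSubring Qbar) (K : IntermediateField ℚ Qbar) [Normal ℚ K] (M : ℕ) [NeZero M]

/-- **`δ_τ` preserves the Gauss valuation ring `OvK A K M hπ`**, `τ` in the decomposition group. -/
theorem arithHom_mem_OvK {π : ↥(AK A K)} (hπ : IsUnif (AK A K) π) {τ : Qbar ≃ₐ[ℚ] Qbar}
    (hτ : τ ∈ A.decompositionSubgroup ℚ) {f : FK M K} (hf : f ∈ OvK A K M hπ) :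
    arithHom (modularFunctionFieldFull M) (τ.restrictNormal K) f ∈ OvK A K M hπ :=
  map_mem_gaussVS hπ (FK M K) (FK_le_fracField A K M) ((τ.restrictNormal K : K ≃ₐ[ℚ] K) : K →+* K)
    (fun x hx => restrict_mem_AK A K hτ x hx) _ (fun _ => rfl) hf

/-- `δ_τ f ∈ Ov ↔ f ∈ Ov`. -/
theorem arithHom_mem_OvK_iff {π : ↥(AK A K)} (hπ : IsUnif (AK A K) π) {τ : Qbar ≃ₐ[ℚ] Qbar}
    (hτ : τ ∈ A.decompositionSubgroup ℚ) {f : FK M K} :
    arithHom (modularFunctionFieldFull M) (τ.restrictNormal K) f ∈ OvK A K M hπ ↔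
      f ∈ OvK A K M hπ := by
  refine ⟨fun h => ?_, arithHom_mem_OvK A K M hπ hτ⟩
  have h1 := arithHom_mem_OvK A K M hπ (inv_mem hτ) h
  have h2 : (τ⁻¹).restrictNormal K = (τ.restrictNormal K).symm := by
    have := restrictNormal_mul9 K τ⁻¹ τ
    rw [inv_mul_cancel, restrictNormal_one9] at this
    exact (eq_inv_of_mul_eq_one_left this.symm)
  rw [h2] at h1
  have h3 : arithHom (modularFunctionFieldFull M) (τ.restrictNormal K).symm
      (arithHom (modularFunctionFieldFull M) (τ.restrictNormal K) f) = f := by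
    have := arithHom_symm_apply (modularFunctionFieldFull M) (τ.restrictNormal K).symm f
    simpa using this
  rwa [h3] at h1

end Concrete

end Fermat.Agent.T1.ChartAut56.Gauss
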