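/-
Programme T1a (S19), brick G-e CHARTAUT, part (2) CONCRETE (helper56): **compatibility of the
coefficientwise Galois action with the base change `K ≤ L`** (helper51's `ModelBC51.Concrete.iR`, `iF`).

* Generic (`φ : K →+* L` a field embedding, `σK : K →+* K`, `σL : L →+* L` with `φ ∘ σK = σL ∘ φ`):
  - `iR_resO` : `iR φ (σK|_O x) = σL|_{O'} (iR φ x)`;
  - `iF_comm` : `iF φ (gK x) = gL (iF φ x)` for endomorphisms `gK`, `gL` of `E`, `E'` acting coefficientwise
    through `σK`, `σL`.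
* Concrete (`K ≤ L ⊂ ℚ̄` both normal over `ℚ`, `τ ∈ Gal(ℚ̄/ℚ)`):
  - `inclusion_restrictNormal` : `(τ|_L) (incl x) = incl ((τ|_K) x)`;
  - `iR_sigmaO`, `iF_arithHom` : the inclusions `AK A K → AK A L`, `FK M K → FK M L` intertwine
    `ChartAut9.Concrete.sigmaO` resp. `arithHom` of `τ|_K` and `τ|_L`.
-/
import Mathlib
import Fermat.Agent.T1.ModelBC51.Concrete
import Fermat.Agent.T1.ChartAut56.Gauss

set_option autoImplicit false
set_option linter.unusedSectionVars false

noncomputable section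

namespace Fermat.Agent.T1.ChartAut56.Compat

open HahnSeries ModularCurve
open Fermat.Agent.RED.PUR.GaussGen8 Fermat.Agent.T1.ModelBC51.Concrete
open Fermat.Agent.T1.ChartAut56.Gauss

section Generic

variable {K L : Type*} [Field K] [Field L] (φ : K →+* L)
  (σK : K →+* K) (σL : L →+* L) (hφ : ∀ x : K, φ (σK x) = σL (φ x))

include hφ in
/-- the inclusion of the valuation rings intertwines the restrictions of `σK`, `σL`. -/
theorem iR_resO {O : ValuationSubring K} {O' : ValuationSubring L}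
    (hOO' : ∀ x : K, x ∈ O ↔ φ x ∈ O') (hσK : ∀ x ∈ O, σK x ∈ O) (hσL : ∀ x ∈ O', σL x ∈ O')
    (x : ↥O) : iR φ hOO' (resO O σK hσK x) = resO O' σL hσL (iR φ hOO' x) :=
  Subtype.ext (hφ (x : K))

include hφ in
/-- `coeffMap φ` intertwines the coefficientwise actions. -/
theorem coeffMap_comm (x : LaurentSeries K) :
    coeffMap φ (coeffMap σK x) = coeffMap σL (coeffMap φ x) := by
  rw [coeffMap_coeffMap, coeffMap_coeffMap]
  exact coeffMap_congr (RingHom.ext hφ) x

include hφ in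
/-- `iF` intertwines endomorphisms acting coefficientwise through `σK`, `σL`. -/
theorem iF_comm {E : IntermediateField K (LaurentSeries K)}
    {E' : IntermediateField L (LaurentSeries L)} (hEE' : ∀ x ∈ E, coeffMap φ x ∈ E')
    (gK : ↥E →+* ↥E) (hgK : ∀ x : ↥E, ((gK x : ↥E) : LaurentSeries K) = coeffMap σK x)
    (gL : ↥E' →+* ↥E') (hgL : ∀ x : ↥E', ((gL x : ↥E') : LaurentSeries L) = coeffMap σL x)
    (x : ↥E) : iF φ hEE' (gK x) = gL (iF φ hEE' x) := by
  apply Subtype.ext
  rw [coe_iF, hgK, hgL, coe_iF]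
  exact coeffMap_comm φ σK σL hφ _

end Generic

/-! ### number fields inside `ℚ̄` -/

section Concrete

open Fermat.Agent.RED.Interface4 Fermat.Agent.T1.ChartAut9.Concrete

variable {K L : IntermediateField ℚ Qbar} [Normal ℚ K] [Normal ℚ L] (hKL : K ≤ L)

/-- the inclusion `K → L`. -/
abbrev incl : ↥K →+* ↥L := (IntermediateField.inclusion hKL).toRingHom

theorem coe_incl (x : ↥K) : ((incl hKL x : ↥L) : Qbar) = (x : Qbar) := rfl

/-- restriction of `τ` commutes with the inclusion. -/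
theorem inclusion_restrictNormal (τ : Qbar ≃ₐ[ℚ] Qbar) (x : ↥K) :
    incl hKL (τ.restrictNormal K x) = τ.restrictNormal L (incl hKL x) := by
  apply Subtype.ext
  have h1 : ((τ.restrictNormal K x : ↥K) : Qbar) = τ (x : Qbar) :=
    AlgEquiv.restrictNormal_commutes τ K x
  have h2 : ((τ.restrictNormal L (incl hKL x) : ↥L) : Qbar) = τ ((incl hKL x : ↥L) : Qbar) :=
    AlgEquiv.restrictNormal_commutes τ L (incl hKL x)
  rw [coe_incl, h1, h2, coe_incl]

variable (A : ValuationSubring Qbar)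

/-- `x ∈ A ∩ K ↔ x ∈ A ∩ L`. -/
theorem mem_AK_iff_incl (x : ↥K) : x ∈ AK A K ↔ incl hKL x ∈ AK A L := Iff.rfl

/-- the inclusion `A ∩ K → A ∩ L` intertwines the restrictions of `τ`. -/
theorem iR_sigmaO {τ : Qbar ≃ₐ[ℚ] Qbar} (hτ : τ ∈ A.decompositionSubgroup ℚ) (x : ↥(AK A K)) :
    iR (incl hKL) (mem_AK_iff_incl hKL A)
        (sigmaO (AK A K) (τ.restrictNormal K) (fun y hy => restrict_mem_AK A K hτ y hy) x) =
      sigmaO (AK A L) (τ.restrictNormal L) (fun y hy => restrict_mem_AK A L hτ y hy)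
        (iR (incl hKL) (mem_AK_iff_incl hKL A) x) :=
  Subtype.ext (inclusion_restrictNormal hKL τ (x : ↥K))

/-- the inclusion `K·F₀ → L·F₀` intertwines the coefficientwise actions of `τ|_K`, `τ|_L`. -/
theorem iF_arithHom (F₀ : IntermediateField ℚ (LaurentSeries ℚ)) (τ : Qbar ≃ₐ[ℚ] Qbar)
    (hEE' : ∀ x ∈ laurentBaseChange ↥K F₀, coeffMap (incl hKL) x ∈ laurentBaseChange ↥L F₀)
    (x : ↥(laurentBaseChange ↥K F₀)) :
    iF (incl hKL) hEE' (arithHom F₀ (τ.restrictNormal K) x) =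
      arithHom F₀ (τ.restrictNormal L) (iF (incl hKL) hEE' x) :=
  iF_comm (incl hKL) _ _ (inclusion_restrictNormal hKL τ) hEE' _ (fun _ => rfl) _ (fun _ => rfl) x

end Concrete

end Fermat.Agent.T1.ChartAut56.Compat
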